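import Mathlib
import Fermat.Agent.S55.G.Spec
import Fermat.Agent.S55.Herbrand.RepCyclic
import Fermat.Agent.S55.H963.BrMain

/-!
# Row LT, tower CFT, leaf CFT.12 (helper49), OFF-MAIN: the chase

`0 → Lˣ → J_S(L) × Div^S(L) → C_S(L) → 0`, `G = ⟨g⟩` finite cyclic, `H¹(G, C_S(L)) = 0`:
if `diag x = N_G j` for some `j ∈ J_S × Div^S` then `x = N_G ℓ` for some `ℓ ∈ Lˣ`.
-/

set_option autoImplicit false

open IsDedekindDomain NumberField CategoryTheory groupCohomology
open Fermat.Agent.S55.G Fermat.Agent.S55.Herbrand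

noncomputable section

namespace Fermat.Agent.LT.CFT.H49

variable (S : Finset Nat.Primes) (G L : Type) [Group G] [Fintype G] [Field L] [NumberField L]
  [MulSemiringAction G L]

/-- `diag : Lˣ → J_S × Div^S` is injective for `S ≠ ∅`. -/
theorem diagHom_injective49 (hS : S.Nonempty) : Function.Injective (diagHom S L) := by
  intro a b hab
  have h1 : unitsDiag S L a = unitsDiag S L b := congrArg Prod.fst hab
  have h2 : asDiag S L ((a.toMul : Lˣ) : L) = asDiag S L ((b.toMul : Lˣ) : L) := by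
    rw [← coe_unitsDiag_apply, ← coe_unitsDiag_apply, h1]
  have h3 := Fermat.Agent.S55.H963.Br.asDiag_injective hS h2
  exact Additive.toMul.injective (Units.ext h3)

/-- The norm of `(g - 1) j'` vanishes. -/
theorem sum_jdRepr_sub49 (g : G) (j' : JD S L) :
    ∑ h : G, jdRepr S G L h (jdRepr S G L g j' - j') = 0 := by
  simp only [map_sub, Finset.sum_sub_distrib]
  rw [sub_eq_zero]
  have e : ∀ h : G, jdRepr S G L h (jdRepr S G L g j') = jdRepr S G L (h * g) j' := by
    intro h
    rw [map_mul]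
    rfl
  simp only [e]
  exact Fintype.sum_equiv (Equiv.mulRight g) _ _ (fun h => rfl)

/-- **The chase.** -/
theorem chase49 (hS : S.Nonempty) (g : G) (hg : ∀ x, x ∈ Subgroup.zpowers g)
    (hH1 : Limits.IsZero (groupCohomology (CRep S G L) 1))
    (x : Additive Lˣ) (j : JD S L)
    (hj : ∑ h : G, jdRepr S G L h j = diagHom S L x) :
    ∃ ℓ : Additive Lˣ, ∑ h : G, lRepr G L h ℓ = x := by
  classical
  set A : Rep ℤ G := CRep S G L with hA
  -- the class of `j`
  set c : CS S L := (principal S L).mkQ j with hc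
  have hρ : ∀ (h : G) (y : JD S L),
      cRepr S G L h ((principal S L).mkQ y) = (principal S L).mkQ (jdRepr S G L h y) :=
    fun h y => rfl
  -- `N c = 0`
  have hN : normN (gAct A g) (Nat.card G) c = 0 := by
    rw [normN_gAct_apply A g hg]
    change ∑ h : G, cRepr S G L h c = 0
    simp only [hc, hρ]
    rw [← map_sum, hj]
    exact (Submodule.Quotient.mk_eq_zero _).2 ⟨x, rfl⟩
  -- `h¹ = 1`
  have hcard : Nat.card (groupCohomology A 1) = 1 := by
    haveI : Subsingleton (groupCohomology A 1) :=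
      (ModuleCat.isZero_iff_subsingleton).1 hH1
    exact Nat.card_unique
  have hh1 : h1 (gAct A g) (Nat.card G) = 1 := by
    rw [← card_H1_eq_h1 A g hg]
    exact hcard
  have hle : (normN (gAct A g) (Nat.card G)).ker ≤ (delta (gAct A g)).range :=
    AddSubgroup.relIndex_eq_one.1 hh1
  obtain ⟨c', hc'⟩ := hle (AddMonoidHom.mem_ker.2 hN)
  obtain ⟨j', rfl⟩ := (principal S L).mkQ_surjective c'
  -- lift
  have hc2 : (principal S L).mkQ (j - (jdRepr S G L g j' - j')) = 0 := by
    rw [map_sub, sub_eq_zero]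
    rw [delta_apply, gAct_apply] at hc'
    change cRepr S G L g ((principal S L).mkQ j') - (principal S L).mkQ j' = c at hc'
    rw [hρ, ← map_sub] at hc'
    exact hc'.symm
  obtain ⟨ℓ, hℓ⟩ := (Submodule.Quotient.mk_eq_zero _).1 hc2
  refine ⟨ℓ, ?_⟩
  apply diagHom_injective49 S L hS
  rw [map_sum]
  have e1 : ∀ h : G, diagHom S L (lRepr G L h ℓ) = jdRepr S G L h (diagHom S L ℓ) :=
    fun h => diagHom_equivariant S G L h ℓ
  simp only [e1]
  have hℓ' : diagHom S L ℓ = j - (jdRepr S G L g j' - j') := hℓ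
  rw [hℓ']
  simp only [map_sub (jdRepr S G L _) j, Finset.sum_sub_distrib]
  rw [sum_jdRepr_sub49, sub_zero, hj]

end Fermat.Agent.LT.CFT.H49

end
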