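import Mathlib
import Fermat.Agent.S55.G.Spec
import Fermat.Agent.S55.H963.BrMain

/-!
# Row LT, tower CFT, leaf CFT.12 (helper49), OFF-MAIN: the semi-local step

`x ∈ Kˣ`, `y ∈ Lˣ`, `b x = N(y) (b + P ^ (2n+2) c)` with `b ∈ ℕ` prime to `P = PS S`, `c ∈ 𝓞 K`,
`n = [L : K]`  ⟹  `x ⊗ 1 = N_G(z)` for a unit `z` of `L ⊗ ℚ_S`.
-/

set_option autoImplicit false

open IsDedekindDomain NumberField
open scoped TensorProduct
open Fermat.Agent.S55.G Fermat.Agent.S55.H963.Br

noncomputable section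

namespace Fermat.Agent.LT.CFT.H49

section RS

variable (S : Finset Nat.Primes) (K : Type) [Field K] [NumberField K]

/-- A natural number prime to `P_S` is a unit of `ℤ_S ⊗ 𝓞 K`. -/
theorem isUnit_natCast_RS49 {b : ℕ} (hb : Nat.Coprime b (PS S)) : IsUnit ((b : ℕ) : RS S K) := by
  have h := Nat.isCoprime_iff_coprime.2 hb
  obtain ⟨lam, mu, h1⟩ := h
  -- lam * b + mu * P = 1
  have h2 : ((b : ℕ) : RS S K) * ((lam : ℤ) : RS S K)
      = 1 + ((PS S : ℕ) : RS S K) * (-((mu : ℤ) : RS S K)) := by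
    have := congrArg (fun z : ℤ => (z : RS S K)) h1
    simp only [Int.cast_add, Int.cast_mul, Int.cast_natCast, Int.cast_one] at this
    linear_combination this
  have h3 : IsUnit (((b : ℕ) : RS S K) * ((lam : ℤ) : RS S K)) := by
    rw [h2]
    exact isUnit_one_add_RS S K _
  exact isUnit_of_mul_isUnit_left h3

/-- `asDiag u = 1 + P ^ M φ(r)` when `b u = b + P ^ M c`. -/
theorem asDiag_eq_one_add49 {b : ℕ} (hb : Nat.Coprime b (PS S)) (M : ℕ) (c : 𝓞 K) (u : K)
    (hu : (b : K) * u = (b : K) + ((PS S : ℕ) : K) ^ M * (c : K)) :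
    ∃ r : RS S K, asDiag S K u = 1 + ((PS S : ℕ) : AS S K) ^ M * phi S K r := by
  obtain ⟨β, hβ⟩ := isUnit_natCast_RS49 S K hb
  refine ⟨(β⁻¹ : (RS S K)ˣ) * ((1 : ZS S) ⊗ₜ[ℤ] c), ?_⟩
  have hφβ : phi S K (β : RS S K) = ((b : ℕ) : AS S K) := by
    rw [hβ, map_natCast]
  have hφc : phi S K ((1 : ZS S) ⊗ₜ[ℤ] c) = asDiag S K (c : K) := by
    rw [phi_tmul, map_one, asDiag_apply]
  have hunit : IsUnit (((b : ℕ) : AS S K)) := by
    rw [← hφβ]
    exact (β.isUnit).map (phi S K)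
  have h1 : ((b : ℕ) : AS S K) * asDiag S K u
      = ((b : ℕ) : AS S K) + ((PS S : ℕ) : AS S K) ^ M * asDiag S K (c : K) := by
    have := congrArg (asDiag S K) hu
    simpa only [map_mul, map_add, map_pow, map_natCast] using this
  have h2 : ((b : ℕ) : AS S K) * phi S K ((β⁻¹ : (RS S K)ˣ) * ((1 : ZS S) ⊗ₜ[ℤ] c))
      = asDiag S K (c : K) := by
    rw [map_mul, ← hφβ, ← mul_assoc, ← map_mul, Units.mul_inv, map_one, one_mul, hφc]
  apply hunit.mul_left_cancel
  rw [h1, mul_add, mul_one, mul_left_comm, h2]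

end RS

section Norm

variable (S : Finset Nat.Primes) (K L : Type) [Field K] [NumberField K] [Field L] [NumberField L]
  [Algebra K L]

/-- `G = Gal(L/K)` acts trivially on the image of `K ⊗ ℚ_S`. -/
theorem asAut_asMap49 (g : L ≃ₐ[K] L) (t : AS S K) :
    asAut S (L ≃ₐ[K] L) L g (asMap S K L t) = asMap S K L t := by
  induction t using TensorProduct.induction_on with
  | zero => simp
  | tmul k a =>
    rw [asMap_tmul, asAut_tmul]
    congr 1
    exact g.commutes k
  | add a b ha hb => rw [map_add, map_add, ha, hb]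

theorem asMap_asDiag49 (u : K) : asMap S K L (asDiag S K u) = asDiag S L (algebraMap K L u) := by
  rw [asDiag_apply, asMap_tmul, asDiag_apply]

variable [IsGalois K L]

/-- **The semi-local step.** -/
theorem exists_norm_eq49 (x : K) (hx : x ≠ 0) (y : L) (hy : y ≠ 0) (b : ℕ)
    (hb : Nat.Coprime b (PS S)) (c : 𝓞 K)
    (h : (b : K) * x = Algebra.norm K y *
      ((b : K) + ((PS S : ℕ) : K) ^ (2 * Nat.card (L ≃ₐ[K] L) + 2) * (c : K))) :
    ∃ z : AS S L, ∏ g : L ≃ₐ[K] L, asAut S (L ≃ₐ[K] L) L g z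
      = asDiag S L (algebraMap K L x) := by
  classical
  set n := Nat.card (L ≃ₐ[K] L) with hn
  have hn0 : 0 < n := Nat.card_pos
  have hNy : Algebra.norm K y ≠ 0 := Algebra.norm_ne_zero_iff.2 hy
  set u : K := x / Algebra.norm K y with hu
  have hxu : x = Algebra.norm K y * u := by
    rw [hu]; field_simp
  have hbu : (b : K) * u = (b : K) + ((PS S : ℕ) : K) ^ (2 * n + 2) * (c : K) := by
    have h' : Algebra.norm K y * ((b : K) * u)
        = Algebra.norm K y * ((b : K) + ((PS S : ℕ) : K) ^ (2 * n + 2) * (c : K)) := by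
      rw [← h, hxu]; ring
    exact mul_left_cancel₀ hNy h'
  obtain ⟨r, hr⟩ := asDiag_eq_one_add49 S K hb (2 * n + 2) c u hbu
  obtain ⟨t, ht⟩ := exists_pow_eq_AS S K hn0 r
  rw [← hr] at ht
  refine ⟨asDiag S L y * asMap S K L t, ?_⟩
  simp only [map_mul, Finset.prod_mul_distrib, asAut_asMap49, asAut_asDiag]
  rw [Finset.prod_const, Finset.card_univ, ← Nat.card_eq_fintype_card, ← map_pow, ht,
    asMap_asDiag49, ← map_prod, ← map_mul]
  congr 1
  have := Algebra.norm_eq_prod_automorphisms K y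
  rw [hxu, map_mul, this]
  rfl

end Norm

end Fermat.Agent.LT.CFT.H49

end
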