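import Mathlib
import Fermat.Agent.S55.G.Spec

/-!
# Row LT, tower CFT, leaf CFT.12 `HasseOfVanishC` (helper49), OFF-MAIN: the two outsourced bricks

`HasseOfVanishC : CycVanishC → HasseNormC` (Spec of helper53, `LT/CFT/SpecH.lean`) is assembled in
`LT/CFT/H49/HasseTop.lean` from

* `HasseWAC`   (MATHLIB ONLY) : weak approximation.  If `x ∈ Kˣ` is a local norm at every finite
  prime (approximation form, hypothesis written out), then for every `P ≥ 1` and `M` there is
  `y ∈ Lˣ` with `x / N(y) = 1 + P ^ M · c / b`, `c ∈ 𝓞 K`, `b ∈ ℕ` prime to `P`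
  (`x / N(y) ≡ 1 mod P ^ M` at all primes dividing `P`).
* `HasseSetC`  (Mathlib + main `S55/G/Defs`, `Spec`) : for `x ∈ Lˣ` there is a finite nonempty set
  `S` of rational primes with `L/K` unramified outside `S` (in the sense `IsUnramOut` of S55
  layer G) and `x` an `S`-unit (`ordHom S L x = 0`).
* the chase in `0 → Lˣ → J_S × Div^S → C_S → 0` and the semi-local step (`HasseTop.lean`, mine).

Route of `HasseWAC` (memo `coord/LT-CFT12-helper49.md`): valuations of `L` only.
(A) hypothesis at `v` ⇒ `w(x / N(y_v) - 1) ≤ exp(-N)` for all `w | v`;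
(B) weak approximation in `L` (CRT): `y` with `w(y / y_{v(w)} - 1) ≤ exp(-N)` for all `w | P`;
(C) `N(y / y_v) = ∏ σ(y / y_v)`, the `σ` permute the `w | v` ⇒ `w(x / N(y) - 1) ≤ exp(-N)`;
(D) `t = (x / N(y) - 1) / P ^ M` is integral at all `w | P`; write a denominator of `t` as
`b · b'`, `b` prime to `P`, `b'` a product of primes dividing `P`: then `b t` is integral at every
prime of `L` (`mem_integers_of_valuation_le_one`), and lies in `K`.
-/

set_option autoImplicit false

open IsDedekindDomain NumberField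
open Fermat.Agent.S55.G

noncomputable section

namespace Fermat.Agent.LT.CFT.H49

/-- **Brick WA (Mathlib only).**  Weak approximation for local norms. -/
def HasseWAC : Prop :=
  ∀ (K L : Type) [Field K] [NumberField K] [Field L] [NumberField L] [Algebra K L]
    [IsGalois K L] (x : K), x ≠ 0 →
    (∀ (v : HeightOneSpectrum (𝓞 K)) (N : ℕ), ∃ (y : L) (a b : 𝓞 K), y ≠ 0 ∧ b ∉ v.asIdeal ∧
      a - b ∈ v.asIdeal ^ N ∧ x * (b : K) = Algebra.norm K y * (a : K)) →
    ∀ P M : ℕ, 0 < P →
      ∃ (y : L) (b : ℕ) (c : 𝓞 K), y ≠ 0 ∧ b ≠ 0 ∧ Nat.Coprime b P ∧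
        (b : K) * x = Algebra.norm K y * ((b : K) + (P : K) ^ M * (c : K))

/-- **Brick SET.**  A finite set of primes outside of which `L/K` is unramified and `x` is a
unit. -/
def HasseSetC : Prop :=
  ∀ (K L : Type) [Field K] [NumberField K] [Field L] [NumberField L] [Algebra K L]
    [IsGalois K L] (x : Lˣ),
    ∃ S : Finset Nat.Primes, S.Nonempty ∧ IsUnramOut S (L ≃ₐ[K] L) L ∧
      ordHom S L (Additive.ofMul x) = 0

end Fermat.Agent.LT.CFT.H49

end
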