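import Mathlib
import Fermat.Agent.LT.CFT.SpecH
import Fermat.Agent.LT.CFT.H49.HasseSpec
import Fermat.Agent.LT.CFT.H49.HasseChase
import Fermat.Agent.LT.CFT.H49.HasseSemi

/-!
# Row LT, tower CFT, leaf CFT.12 (helper49), OFF-MAIN: `HasseOfVanishC` from the two bricks

`hasseOfVanish_of_bricks49 : HasseWAC → HasseSetC → HasseOfVanishC`.
-/

set_option autoImplicit false

open IsDedekindDomain NumberField CategoryTheory groupCohomology
open scoped TensorProduct
open Fermat.Agent.S55.G Fermat.Agent.S55.H963.Br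

noncomputable section

namespace Fermat.Agent.LT.CFT.H49

section

variable (K L : Type) [Field K] [NumberField K] [Field L] [NumberField L] [Algebra K L]

/-- The fixed field of `Gal(L/K)` is totally complex when `K` is. -/
theorem isTotallyComplex_fixed49 (hTC : Fermat.Agent.LT.CFT.TotallyComplex K) :
    IsTotallyComplex (FixedPoints.subfield (L ≃ₐ[K] L) L) := by
  refine ⟨fun w => ?_⟩
  let e : K →+* FixedPoints.subfield (L ≃ₐ[K] L) L :=
    (algebraMap K L).codRestrict (FixedPoints.subfield (L ≃ₐ[K] L) L) (fun k g => g.commutes k)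
  exact InfinitePlace.IsComplex.of_comap e (hTC (w.comap e))

end

/-- **CFT.12 from the bricks.** -/
theorem hasseOfVanish_of_bricks49 (hWA : HasseWAC) (hSet : HasseSetC) :
    Fermat.Agent.LT.CFT.HasseOfVanishC := by
  intro hv K L _ _ _ _ _ _ hTC hcyc x hx hloc
  classical
  have hxL : algebraMap K L x ≠ 0 := by
    rw [Ne, map_eq_zero_iff _ (algebraMap K L).injective]
    exact hx
  obtain ⟨S, hSne, hunr, hord⟩ := hSet K L (Units.mk0 (algebraMap K L x) hxL)
  obtain ⟨y, b, c, hy, -, hbP, hyb⟩ := hWA K L x hx (fun v N => hloc v N) (PS S)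
    (2 * Nat.card (L ≃ₐ[K] L) + 2) (PS_pos S)
  obtain ⟨z₀, hz₀⟩ := exists_norm_eq49 S K L x hx y hy b hbP c hyb
  -- `z₀` is a unit
  have hXunit : IsUnit (asDiag S L (algebraMap K L x)) :=
    (IsUnit.mk0 _ hxL).map (asDiag S L)
  have hz₀unit : IsUnit z₀ := by
    have hdvd : z₀ ∣ ∏ g : L ≃ₐ[K] L, asAut S (L ≃ₐ[K] L) L g z₀ := by
      have h1 : asAut S (L ≃ₐ[K] L) L 1 z₀ ∣ ∏ g : L ≃ₐ[K] L, asAut S (L ≃ₐ[K] L) L g z₀ :=
        Finset.dvd_prod_of_mem _ (Finset.mem_univ 1)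
      rwa [map_one] at h1
    rw [hz₀] at hdvd
    exact isUnit_of_dvd_unit hdvd hXunit
  obtain ⟨z, hz⟩ := hz₀unit
  haveI : IsCyclic (L ≃ₐ[K] L) := hcyc
  haveI : IsTotallyComplex (FixedPoints.subfield (L ≃ₐ[K] L) L) :=
    isTotallyComplex_fixed49 K L hTC
  obtain ⟨hH1, -⟩ := hv S (L ≃ₐ[K] L) L hSne hunr
  obtain ⟨g, hg⟩ := IsCyclic.exists_generator (α := L ≃ₐ[K] L)
  have hj : ∑ h : L ≃ₐ[K] L, jdRepr S (L ≃ₐ[K] L) L h ((Additive.ofMul z, 0) : JD S L)
      = diagHom S L (Additive.ofMul (Units.mk0 (algebraMap K L x) hxL)) := by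
    refine Prod.ext ?_ ?_
    · rw [Prod.fst_sum, diagHom_fst]
      apply Additive.toMul.injective
      apply Units.ext
      rw [coe_unitsDiag_apply, toMul_sum, Units.coe_prod]
      change ∏ h : L ≃ₐ[K] L, (((jRepr (L ≃ₐ[K] L) S L h (Additive.ofMul z)).toMul : (AS S L)ˣ)
        : AS S L) = _
      simp only [coe_jRepr_apply, toMul_ofMul, hz, hz₀]
      rfl
    · rw [Prod.snd_sum, diagHom_snd, hord]
      apply Finset.sum_eq_zero
      intro h _
      change divRepr S (L ≃ₐ[K] L) L h 0 = 0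
      exact map_zero _
  obtain ⟨ℓ, hℓ⟩ := chase49 S (L ≃ₐ[K] L) L hSne g hg hH1 _ _ hj
  refine ⟨((ℓ.toMul : Lˣ) : L), ?_⟩
  apply (algebraMap K L).injective
  rw [Algebra.norm_eq_prod_automorphisms]
  have h1 := congrArg (fun a : Additive Lˣ => ((a.toMul : Lˣ) : L)) hℓ
  simp only [toMul_sum, Units.coe_prod, toMul_ofMul, Units.val_mk0] at h1
  rw [← h1]
  rfl

end Fermat.Agent.LT.CFT.H49

end
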