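import Mathlib
import Fermat.Agent.S55.G.Defs
import Fermat.Agent.LT.CFT.H49.HasseSpec

/-!
# Row LT, tower CFT, brick CFT.12.1 `HasseWAC` (helper49), OFF-MAIN

Weak approximation for local norms.  Mathlib + main `S55/G/Defs` (Galois action on the primes).
-/

set_option autoImplicit false
set_option linter.unusedSectionVars false
set_option linter.unusedVariables false

open IsDedekindDomain NumberField
open Fermat.Agent.S55.G

noncomputable section

namespace Fermat.Agent.LT.CFT.H49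

/-! ## Arithmetic: splitting an integer -/

/-- Every `d ≠ 0` is `b * b'` with `b` prime to `P` and `b' ∣ P ^ k`. -/
theorem exists_split49 (P : ℕ) : ∀ d : ℕ, d ≠ 0 →
    ∃ b b' k : ℕ, d = b * b' ∧ Nat.Coprime b P ∧ b' ∣ P ^ k := by
  intro d
  induction d using Nat.strong_induction_on with
  | _ d ih =>
    intro hd
    by_cases hc : Nat.Coprime d P
    · exact ⟨d, 1, 0, by simp, hc, by simp⟩
    · have hg1 : Nat.gcd d P ≠ 1 := hc
      have hgpos : 0 < Nat.gcd d P := Nat.gcd_pos_of_pos_left _ (Nat.pos_of_ne_zero hd)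
      have hg2 : 2 ≤ Nat.gcd d P := by omega
      obtain ⟨d', hd'⟩ := Nat.gcd_dvd_left d P
      have hd'0 : d' ≠ 0 := by
        rintro rfl
        rw [mul_zero] at hd'
        exact hd hd'
      have hlt : d' < d := by
        rw [hd']
        calc d' = 1 * d' := (one_mul _).symm
          _ < Nat.gcd d P * d' := Nat.mul_lt_mul_of_pos_right (by omega) (Nat.pos_of_ne_zero hd'0)
      obtain ⟨b, b', k, h1, h2, h3⟩ := ih d' hlt hd'0
      refine ⟨b, Nat.gcd d P * b', k + 1, ?_, h2, ?_⟩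
      · calc d = Nat.gcd d P * d' := hd'
          _ = Nat.gcd d P * (b * b') := by rw [h1]
          _ = b * (Nat.gcd d P * b') := by ring
      · rw [pow_succ, mul_comm (P ^ k)]
        exact Nat.mul_dvd_mul (Nat.gcd_dvd_right d P) h3

/-! ## Valuations: elements close to `1` -/

section Close

variable {L : Type} [Field L] [NumberField L]

theorem close_mul49 (w : HeightOneSpectrum (𝓞 L)) (N : ℕ) {s t : L}
    (hs : w.valuation L (s - 1) ≤ WithZero.exp (-(N : ℤ)))
    (ht : w.valuation L (t - 1) ≤ WithZero.exp (-(N : ℤ))) :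
    w.valuation L (s * t - 1) ≤ WithZero.exp (-(N : ℤ)) := by
  have hle1 : WithZero.exp (-(N : ℤ)) ≤ (1 : WithZero (Multiplicative ℤ)) := by
    rw [← WithZero.exp_zero, WithZero.exp_le_exp]
    omega
  have ht1 : w.valuation L t ≤ 1 := by
    have : t = (t - 1) + 1 := by ring
    rw [this]
    refine le_trans (Valuation.map_add _ _ _) (max_le (ht.trans hle1) ?_)
    rw [map_one]
  have e : s * t - 1 = (s - 1) * t + (t - 1) := by ring
  rw [e]
  refine le_trans (Valuation.map_add _ _ _) (max_le ?_ ht)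
  rw [map_mul]
  calc w.valuation L (s - 1) * w.valuation L t ≤ w.valuation L (s - 1) * 1 :=
        mul_le_mul' le_rfl ht1
    _ = w.valuation L (s - 1) := mul_one _
    _ ≤ _ := hs

theorem close_val_eq_one49 (w : HeightOneSpectrum (𝓞 L)) (N : ℕ) (hN : 0 < N) {s : L}
    (hs : w.valuation L (s - 1) ≤ WithZero.exp (-(N : ℤ))) : w.valuation L s = 1 := by
  have hlt : w.valuation L (s - 1) < 1 := by
    refine lt_of_le_of_lt hs ?_
    rw [← WithZero.exp_zero, WithZero.exp_lt_exp]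
    omega
  have : s = 1 + (s - 1) := by ring
  rw [this]
  have h1 : w.valuation L (1 : L) = 1 := map_one _
  rw [Valuation.map_add_eq_of_lt_left _ (by rw [h1]; exact hlt), h1]

theorem close_inv49 (w : HeightOneSpectrum (𝓞 L)) (N : ℕ) (hN : 0 < N) {s : L}
    (hs : w.valuation L (s - 1) ≤ WithZero.exp (-(N : ℤ))) :
    w.valuation L (s⁻¹ - 1) ≤ WithZero.exp (-(N : ℤ)) := by
  have h1 := close_val_eq_one49 w N hN hs
  have hs0 : s ≠ 0 := by
    rintro rfl
    rw [map_zero] at h1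
    exact zero_ne_one h1
  have e : s⁻¹ - 1 = -(s - 1) * s⁻¹ := by field_simp; ring
  rw [e, map_mul, map_inv₀, h1, inv_one, mul_one, Valuation.map_neg]
  exact hs

theorem close_one49 (w : HeightOneSpectrum (𝓞 L)) (N : ℕ) :
    w.valuation L ((1 : L) - 1) ≤ WithZero.exp (-(N : ℤ)) := by
  rw [sub_self, map_zero]
  exact zero_le

theorem close_prod49 (w : HeightOneSpectrum (𝓞 L)) (N : ℕ) {ι : Type*} (s : Finset ι)
    (f : ι → L) (h : ∀ i ∈ s, w.valuation L (f i - 1) ≤ WithZero.exp (-(N : ℤ))) :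
    w.valuation L (∏ i ∈ s, f i - 1) ≤ WithZero.exp (-(N : ℤ)) := by
  classical
  induction s using Finset.induction_on with
  | empty => rw [Finset.prod_empty]; exact close_one49 w N
  | insert a s ha ih =>
    rw [Finset.prod_insert ha]
    exact close_mul49 w N (h a (Finset.mem_insert_self a s))
      (ih fun i hi => h i (Finset.mem_insert_of_mem hi))

end Close

/-! ## Weak approximation in `L` (CRT) -/

section Approx

variable {L : Type} [Field L] [NumberField L]

/-- CRT in `𝓞 L`, valuation form, with a nonzero solution. -/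
theorem exists_int_approx49 (s : Finset (HeightOneSpectrum (𝓞 L)))
    (e : HeightOneSpectrum (𝓞 L) → ℕ) (t : HeightOneSpectrum (𝓞 L) → 𝓞 L) :
    ∃ y : 𝓞 L, y ≠ 0 ∧ ∀ v ∈ s, v.intValuation (y - t v) ≤ WithZero.exp (-(e v : ℤ)) := by
  classical
  obtain ⟨y₀, hy₀⟩ := IsDedekindDomain.exists_forall_sub_mem_ideal
    (s := s) (fun v : HeightOneSpectrum (𝓞 L) => v.asIdeal) e
    (fun v _ => v.prime) (fun v _ w _ hvw h => hvw (HeightOneSpectrum.ext h))
    (fun v => t v.1)
  have hJ : (∏ v ∈ s, v.asIdeal ^ e v) ≠ ⊥ := by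
    rw [← Ideal.zero_eq_bot, Finset.prod_ne_zero_iff]
    intro v _
    exact pow_ne_zero _ v.ne_bot
  obtain ⟨m, hmJ, hm0⟩ := Submodule.exists_mem_ne_zero_of_ne_bot hJ
  have hm : ∀ v ∈ s, m ∈ v.asIdeal ^ e v := fun v hv =>
    Ideal.le_of_dvd (Finset.dvd_prod_of_mem (fun v : HeightOneSpectrum (𝓞 L) => v.asIdeal ^ e v) hv)
      hmJ
  by_cases h0 : y₀ = 0
  · refine ⟨m, hm0, fun v hv => ?_⟩
    rw [HeightOneSpectrum.intValuation_le_pow_iff_mem]
    have h1 := hy₀ v hv
    rw [h0] at h1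
    have : m - t v = m + (0 - t v) := by ring
    rw [this]
    exact Ideal.add_mem _ (hm v hv) h1
  · exact ⟨y₀, h0, fun v hv => (HeightOneSpectrum.intValuation_le_pow_iff_mem _ _ _).2 (hy₀ v hv)⟩

/-- Weak approximation in `L` at a finite set of finite places, with a nonzero solution. -/
theorem exists_approx49 (s : Finset (HeightOneSpectrum (𝓞 L)))
    (M : HeightOneSpectrum (𝓞 L) → ℤ) (k : HeightOneSpectrum (𝓞 L) → L) :
    ∃ γ : L, γ ≠ 0 ∧ ∀ v ∈ s, v.valuation L (γ - k v) ≤ WithZero.exp (-(M v)) := by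
  classical
  obtain ⟨⟨d, hd⟩, hdk⟩ := IsLocalization.exist_integer_multiples_of_finset
    (nonZeroDivisors (𝓞 L)) (s.image k)
  have hd0 : d ≠ 0 := nonZeroDivisors.ne_zero hd
  have hdK : (algebraMap (𝓞 L) L d) ≠ 0 := by
    simpa using hd0
  have ht : ∀ v : HeightOneSpectrum (𝓞 L), ∃ t : 𝓞 L, v ∈ s → algebraMap (𝓞 L) L t = d • k v := by
    intro v
    by_cases hv : v ∈ s
    · obtain ⟨t, ht⟩ := hdk (k v) (Finset.mem_image_of_mem k hv)
      exact ⟨t, fun _ => ht⟩
    · exact ⟨0, fun h => absurd h hv⟩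
  choose t ht using ht
  have hn : ∀ v : HeightOneSpectrum (𝓞 L), ∃ n : ℕ,
      v.intValuation d = WithZero.exp (-(n : ℤ)) := fun v => ⟨_, v.intValuation_if_neg hd0⟩
  choose n hn using hn
  obtain ⟨y, hy0, hy⟩ := exists_int_approx49 s (fun v => (M v).toNat + n v) t
  refine ⟨algebraMap (𝓞 L) L y / algebraMap (𝓞 L) L d, ?_, fun v hv => ?_⟩
  · exact div_ne_zero (by simpa using hy0) hdK
  · have e1 : algebraMap (𝓞 L) L y / algebraMap (𝓞 L) L d - k v
        = algebraMap (𝓞 L) L (y - t v) / algebraMap (𝓞 L) L d := by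
      rw [map_sub, ht v hv, Algebra.smul_def]
      field_simp
    rw [e1, map_div₀, HeightOneSpectrum.valuation_of_algebraMap,
      HeightOneSpectrum.valuation_of_algebraMap, hn v]
    have h1 := hy v hv
    rw [div_le_iff₀ (by simp), ← WithZero.exp_add]
    refine le_trans h1 ?_
    rw [WithZero.exp_le_exp]
    have := Int.self_le_toNat (M v)
    push_cast
    linarith

/-- Multiplicative weak approximation: `y / k_w ≡ 1 mod w ^ N` for all `w ∈ s`. -/
theorem exists_mul_approx49 (s : Finset (HeightOneSpectrum (𝓞 L))) (N : ℕ)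
    (k : HeightOneSpectrum (𝓞 L) → L) (hk : ∀ w, k w ≠ 0) :
    ∃ y : L, y ≠ 0 ∧ ∀ w ∈ s, w.valuation L (y / k w - 1) ≤ WithZero.exp (-(N : ℤ)) := by
  obtain ⟨y, hy0, hy⟩ := exists_approx49 s
    (fun w => (N : ℤ) - WithZero.log (w.valuation L (k w))) k
  refine ⟨y, hy0, fun w hw => ?_⟩
  have hkw : w.valuation L (k w) ≠ 0 := (Valuation.ne_zero_iff _).2 (hk w)
  have e : y / k w - 1 = (y - k w) / k w := by
    field_simp [hk w]
  rw [e, map_div₀, div_le_iff₀ (zero_lt_iff.2 hkw)]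
  refine le_trans (hy w hw) ?_
  have h2 : w.valuation L (k w) = WithZero.exp (WithZero.log (w.valuation L (k w))) :=
    (WithZero.exp_log hkw).symm
  conv_rhs => rw [h2]
  rw [← WithZero.exp_add, WithZero.exp_le_exp]
  omega

end Approx

/-! ## Fractions, Galois action, norms -/

section Frac

variable {K L : Type} [Field K] [NumberField K] [Field L] [NumberField L] [Algebra K L]

theorem close_of_frac49 (w : HeightOneSpectrum (𝓞 L)) (N : ℕ) (a b : 𝓞 K)
    (hb : b ∉ (w.under (𝓞 K)).asIdeal) (hab : a - b ∈ (w.under (𝓞 K)).asIdeal ^ N) :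
    w.valuation L (algebraMap K L (algebraMap (𝓞 K) K a / algebraMap (𝓞 K) K b) - 1)
      ≤ WithZero.exp (-(N : ℤ)) := by
  set α : 𝓞 L := algebraMap (𝓞 K) (𝓞 L) a with hα
  set β : 𝓞 L := algebraMap (𝓞 K) (𝓞 L) b with hβ
  have hα' : algebraMap K L (algebraMap (𝓞 K) K a) = algebraMap (𝓞 L) L α := by
    rw [hα, ← IsScalarTower.algebraMap_apply, ← IsScalarTower.algebraMap_apply]
  have hβ' : algebraMap K L (algebraMap (𝓞 K) K b) = algebraMap (𝓞 L) L β := by
    rw [hβ, ← IsScalarTower.algebraMap_apply, ← IsScalarTower.algebraMap_apply]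
  have hβw : β ∉ w.asIdeal := fun h => hb (Ideal.mem_comap.2 h)
  have hβ1 : w.valuation L (algebraMap (𝓞 L) L β) = 1 :=
    (HeightOneSpectrum.valuation_eq_one_iff_notMem w).2 hβw
  have hαβ : α - β ∈ w.asIdeal ^ N := by
    have h1 : algebraMap (𝓞 K) (𝓞 L) (a - b) ∈
        Ideal.map (algebraMap (𝓞 K) (𝓞 L)) ((w.under (𝓞 K)).asIdeal ^ N) :=
      Ideal.mem_map_of_mem _ hab
    rw [Ideal.map_pow, map_sub] at h1
    have h2 : Ideal.map (algebraMap (𝓞 K) (𝓞 L)) (w.under (𝓞 K)).asIdeal ≤ w.asIdeal :=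
      Ideal.map_comap_le
    exact Ideal.pow_right_mono h2 N h1
  have hval : w.valuation L (algebraMap (𝓞 L) L (α - β)) ≤ WithZero.exp (-(N : ℤ)) := by
    rw [HeightOneSpectrum.valuation_of_algebraMap]
    exact (HeightOneSpectrum.intValuation_le_pow_iff_mem _ _ _).2 hαβ
  have hβ0 : algebraMap (𝓞 L) L β ≠ 0 := by
    intro h
    rw [h, map_zero] at hβ1
    exact zero_ne_one hβ1
  have e : algebraMap K L (algebraMap (𝓞 K) K a / algebraMap (𝓞 K) K b) - 1
      = algebraMap (𝓞 L) L (α - β) / algebraMap (𝓞 L) L β := by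
    rw [map_div₀, hα', hβ', map_sub]
    field_simp
  rw [e, map_div₀, hβ1, div_one]
  exact hval

/-- The Galois group permutes the primes over a given prime of `K`. -/
theorem under_primeSMul49 (σ : L ≃ₐ[K] L) (w : HeightOneSpectrum (𝓞 L)) :
    (primeSMul (L ≃ₐ[K] L) σ w).under (𝓞 K) = w.under (𝓞 K) := by
  apply HeightOneSpectrum.ext
  ext x
  change algebraMap (𝓞 K) (𝓞 L) x ∈ (primeSMul (L ≃ₐ[K] L) σ w).asIdeal
    ↔ algebraMap (𝓞 K) (𝓞 L) x ∈ w.asIdeal
  rw [mem_primeSMul_iff]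
  have : σ⁻¹ • algebraMap (𝓞 K) (𝓞 L) x = algebraMap (𝓞 K) (𝓞 L) x := by
    apply Subtype.ext
    change σ⁻¹ • ((algebraMap (𝓞 K) (𝓞 L) x : 𝓞 L) : L) = _
    have h1 : ((algebraMap (𝓞 K) (𝓞 L) x : 𝓞 L) : L) = algebraMap K L (algebraMap (𝓞 K) K x) := by
      change algebraMap (𝓞 L) L (algebraMap (𝓞 K) (𝓞 L) x) = _
      rw [← IsScalarTower.algebraMap_apply, ← IsScalarTower.algebraMap_apply]
    rw [h1]
    exact (σ⁻¹).commutes _
  rw [this]

theorem primeSMul_inv49 (σ : L ≃ₐ[K] L) (w : HeightOneSpectrum (𝓞 L)) :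
    primeSMul (L ≃ₐ[K] L) σ (primeSMul (L ≃ₐ[K] L) σ⁻¹ w) = w := by
  have := (primeAction (L ≃ₐ[K] L) L).mul_smul σ σ⁻¹ w
  rw [mul_inv_cancel] at this
  have h1 := (primeAction (L ≃ₐ[K] L) L).one_smul w
  exact this.symm.trans h1

variable [IsGalois K L]

theorem close_norm49 (v : HeightOneSpectrum (𝓞 K)) (N : ℕ) (s : L)
    (hs : ∀ w : HeightOneSpectrum (𝓞 L), w.under (𝓞 K) = v →
      w.valuation L (s - 1) ≤ WithZero.exp (-(N : ℤ)))
    (w : HeightOneSpectrum (𝓞 L)) (hw : w.under (𝓞 K) = v) :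
    w.valuation L (algebraMap K L (Algebra.norm K s) - 1) ≤ WithZero.exp (-(N : ℤ)) := by
  rw [Algebra.norm_eq_prod_automorphisms]
  apply close_prod49
  intro σ _
  have h1 := valuation_primeSMul (L ≃ₐ[K] L) σ (primeSMul (L ≃ₐ[K] L) σ⁻¹ w) (s - 1)
  rw [primeSMul_inv49] at h1
  have h3 : σ • (s - 1) = σ s - 1 := by
    rw [AlgEquiv.smul_def, map_sub, map_one]
  rw [h3] at h1
  rw [h1]
  exact hs _ (by rw [under_primeSMul49, hw])

end Frac

/-! ## Integrality away from the denominators -/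

section Conv

variable {L : Type} [Field L] [NumberField L]

theorem valuation_le_one_of_isIntegral49 (w : HeightOneSpectrum (𝓞 L)) {z : L}
    (hz : IsIntegral ℤ z) : w.valuation L z ≤ 1 := by
  have : z ∈ (algebraMap (𝓞 L) L).range := ⟨⟨z, hz⟩, rfl⟩
  obtain ⟨r, rfl⟩ := this
  exact HeightOneSpectrum.valuation_le_one w r

theorem exists_coprime_integral49 (P : ℕ) (t : L)
    (ht : ∀ w : HeightOneSpectrum (𝓞 L), ((P : ℕ) : 𝓞 L) ∈ w.asIdeal → w.valuation L t ≤ 1) :
    ∃ b : ℕ, b ≠ 0 ∧ Nat.Coprime b P ∧ IsIntegral ℤ ((b : L) * t) := by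
  have halg : IsAlgebraic ℤ t :=
    (IsFractionRing.isAlgebraic_iff ℤ ℚ L).2 (Algebra.IsAlgebraic.isAlgebraic (R := ℚ) t)
  obtain ⟨d, hd0, hd⟩ := halg.exists_integral_multiple
  obtain ⟨n, hn⟩ : ∃ n : ℕ, n ≠ 0 ∧ IsIntegral ℤ (((n : ℕ) : L) * t) := by
    obtain ⟨n, h | h⟩ := Int.eq_nat_or_neg d
    · refine ⟨n, ?_, ?_⟩
      · rintro rfl
        exact hd0 (by simpa using h)
      · have e : ((n : ℕ) : L) * t = d • t := by
          rw [zsmul_eq_mul, h]
          push_cast
          rfl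
        rw [e]; exact hd
    · refine ⟨n, ?_, ?_⟩
      · rintro rfl
        exact hd0 (by simpa using h)
      · have e : ((n : ℕ) : L) * t = -(d • t) := by
          rw [zsmul_eq_mul, h]
          push_cast
          ring
        rw [e]; exact hd.neg
  obtain ⟨hn0, hn⟩ := hn
  obtain ⟨b, b', k, hsplit, hcop, hdvd⟩ := exists_split49 P n hn0
  have hb0 : b ≠ 0 := by
    rintro rfl
    rw [zero_mul] at hsplit
    exact hn0 hsplit
  refine ⟨b, hb0, hcop, ?_⟩
  have hmem : (b : L) * t ∈ (algebraMap (𝓞 L) L).range := by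
    apply HeightOneSpectrum.mem_integers_of_valuation_le_one
    intro w
    have hbw : w.valuation L ((b : ℕ) : L) ≤ 1 := by
      have : ((b : ℕ) : L) = algebraMap (𝓞 L) L ((b : ℕ) : 𝓞 L) := (map_natCast _ b).symm
      rw [this]
      exact HeightOneSpectrum.valuation_le_one w _
    by_cases hPw : ((P : ℕ) : 𝓞 L) ∈ w.asIdeal
    · rw [map_mul]
      exact mul_le_one' hbw (ht w hPw)
    · -- `w(b') = 1`
      have hb'w : ((b' : ℕ) : 𝓞 L) ∉ w.asIdeal := by
        intro hmem
        obtain ⟨e, he⟩ := hdvd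
        have : ((P : ℕ) : 𝓞 L) ^ k ∈ w.asIdeal := by
          have h1 : ((P : ℕ) : 𝓞 L) ^ k = ((b' : ℕ) : 𝓞 L) * ((e : ℕ) : 𝓞 L) := by
            rw [← Nat.cast_pow, he, Nat.cast_mul]
          rw [h1]
          exact Ideal.mul_mem_right _ _ hmem
        exact hPw (w.isPrime.mem_of_pow_mem k this)
      have hb'1 : w.valuation L ((b' : ℕ) : L) = 1 := by
        have : ((b' : ℕ) : L) = algebraMap (𝓞 L) L ((b' : ℕ) : 𝓞 L) := (map_natCast _ b').symm
        rw [this]
        exact (HeightOneSpectrum.valuation_eq_one_iff_notMem w).2 hb'w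
      have e : (b : L) * t = (((b' : ℕ) : L))⁻¹ * (((n : ℕ) : L) * t) := by
        have hb'0 : ((b' : ℕ) : L) ≠ 0 := by
          intro h
          rw [h, map_zero] at hb'1
          exact zero_ne_one hb'1
        rw [hsplit]
        push_cast
        field_simp
      rw [e, map_mul, map_inv₀, hb'1, inv_one, one_mul]
      exact valuation_le_one_of_isIntegral49 w hn
  obtain ⟨r, hr⟩ := hmem
  rw [← hr]
  exact r.2

end Conv

/-! ## The brick -/

/-- **Brick WA**: weak approximation for local norms. -/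
theorem hasseWA49 : HasseWAC := by
  intro K L _ _ _ _ _ _ x hx hloc P M hP
  classical
  -- the primes of `L` dividing `P`
  have hP0 : ((P : ℕ) : 𝓞 L) ≠ 0 := by
    rw [Nat.cast_ne_zero]; omega
  have hfin : {w : HeightOneSpectrum (𝓞 L) | ((P : ℕ) : 𝓞 L) ∈ w.asIdeal}.Finite := by
    have h1 := Ideal.finite_factors (I := Ideal.span {((P : ℕ) : 𝓞 L)})
      (by simpa using hP0)
    refine h1.subset fun w hw => ?_
    exact Ideal.dvd_span_singleton.2 hw
  set T : Finset (HeightOneSpectrum (𝓞 L)) := hfin.toFinset with hT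
  have hmemT : ∀ w : HeightOneSpectrum (𝓞 L), w ∈ T ↔ ((P : ℕ) : 𝓞 L) ∈ w.asIdeal := by
    intro w
    rw [hT, Set.Finite.mem_toFinset]
    rfl
  -- the precision
  have hPM0 : ((P : ℕ) : 𝓞 L) ^ M ≠ 0 := pow_ne_zero _ hP0
  have hm : ∀ w : HeightOneSpectrum (𝓞 L), ∃ m : ℕ,
      w.intValuation (((P : ℕ) : 𝓞 L) ^ M) = WithZero.exp (-(m : ℤ)) :=
    fun w => ⟨_, w.intValuation_if_neg hPM0⟩
  choose m hm using hm
  set N : ℕ := (∑ w ∈ T, m w) + 1 with hN
  have hNpos : 0 < N := by omega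
  have hmN : ∀ w ∈ T, m w ≤ N := by
    intro w hw
    have := Finset.single_le_sum (f := m) (fun i _ => Nat.zero_le _) hw
    omega
  -- local data
  choose Y A B hY hB hAB hxY using fun v => hloc v N
  -- weak approximation
  obtain ⟨y, hy0, hy⟩ := exists_mul_approx49 T N (fun w => Y (w.under (𝓞 K)))
    (fun w => hY _)
  have hNy : Algebra.norm K y ≠ 0 := Algebra.norm_ne_zero_iff.2 hy0
  -- closeness of `x / N(y)` at every `w ∈ T`
  have hclose : ∀ w ∈ T, w.valuation L (algebraMap K L (x / Algebra.norm K y) - 1)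
      ≤ WithZero.exp (-(N : ℤ)) := by
    intro w hw
    set v := w.under (𝓞 K) with hv
    have hBv0 : algebraMap (𝓞 K) K (B v) ≠ 0 := by
      intro h
      have : B v = 0 := by
        have h2 : algebraMap (𝓞 K) K (B v) = algebraMap (𝓞 K) K 0 := by rw [h, map_zero]
        exact FaithfulSMul.algebraMap_injective (𝓞 K) K h2
      exact hB v (this ▸ Ideal.zero_mem _)
    have hNYv : Algebra.norm K (Y v) ≠ 0 := Algebra.norm_ne_zero_iff.2 (hY v)
    -- `x / N(y) = (A / B) * (N(y / Y v))⁻¹`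
    have e1 : x / Algebra.norm K y
        = (algebraMap (𝓞 K) K (A v) / algebraMap (𝓞 K) K (B v))
          * (Algebra.norm K (y / Y v))⁻¹ := by
      have hx' : x * algebraMap (𝓞 K) K (B v) = Algebra.norm K (Y v) * algebraMap (𝓞 K) K (A v) :=
        hxY v
      have hnq : Algebra.norm K (y / Y v) * Algebra.norm K (Y v) = Algebra.norm K y := by
        rw [← map_mul, div_mul_cancel₀ _ (hY v)]
      have hnq0 : Algebra.norm K (y / Y v) ≠ 0 :=
        Algebra.norm_ne_zero_iff.2 (div_ne_zero hy0 (hY v))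
      rw [← hnq]
      field_simp
      linear_combination hx'
    rw [e1, map_mul, map_inv₀]
    refine close_mul49 w N (close_of_frac49 w N (A v) (B v) (hB v) (hAB v)) ?_
    refine close_inv49 w N hNpos ?_
    refine close_norm49 v N (y / Y v) ?_ w rfl
    intro w' hw'
    have hw'T : w' ∈ T := by
      rw [hmemT] at hw ⊢
      have h1 : ((P : ℕ) : 𝓞 K) ∈ v.asIdeal := by
        change algebraMap (𝓞 K) (𝓞 L) ((P : ℕ) : 𝓞 K) ∈ w.asIdeal
        rw [map_natCast]
        exact hw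
      rw [← hw'] at h1
      have h2 : algebraMap (𝓞 K) (𝓞 L) ((P : ℕ) : 𝓞 K) ∈ w'.asIdeal := h1
      rwa [map_natCast] at h2
    have := hy w' hw'T
    rwa [hw'] at this
  -- integrality of `t = (x / N(y) - 1) / P ^ M` at the primes dividing `P`
  set tK : K := (x / Algebra.norm K y - 1) / ((P : ℕ) : K) ^ M with htK
  have hPK0 : ((P : ℕ) : K) ≠ 0 := by
    rw [Nat.cast_ne_zero]; omega
  have hPL0 : ((P : ℕ) : L) ≠ 0 := by
    rw [Nat.cast_ne_zero]; omega
  have htw : ∀ w : HeightOneSpectrum (𝓞 L), ((P : ℕ) : 𝓞 L) ∈ w.asIdeal →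
      w.valuation L (algebraMap K L tK) ≤ 1 := by
    intro w hw
    have hwT : w ∈ T := (hmemT w).2 hw
    have e : algebraMap K L tK
        = (algebraMap K L (x / Algebra.norm K y) - 1) / algebraMap (𝓞 L) L (((P : ℕ) : 𝓞 L) ^ M) := by
      rw [htK, map_div₀, map_sub, map_one, map_pow, map_pow, map_natCast, map_natCast]
    rw [e, map_div₀, HeightOneSpectrum.valuation_of_algebraMap, hm w]
    rw [div_le_iff₀ (by simp), one_mul]
    refine le_trans (hclose w hwT) ?_
    rw [WithZero.exp_le_exp]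
    have := hmN w hwT
    omega
  obtain ⟨b, hb0, hbP, hbint⟩ := exists_coprime_integral49 P (algebraMap K L tK) htw
  have hbint' : IsIntegral ℤ ((b : K) * tK) := by
    have e : (b : L) * algebraMap K L tK = algebraMap K L ((b : K) * tK) := by
      rw [map_mul, map_natCast]
    rw [e] at hbint
    exact (isIntegral_algebraMap_iff (algebraMap K L).injective).1 hbint
  refine ⟨y, b, ⟨(b : K) * tK, hbint'⟩, hy0, hb0, hbP, ?_⟩
  change (b : K) * x = Algebra.norm K y * ((b : K) + ((P : ℕ) : K) ^ M * ((b : K) * tK))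
  rw [htK]
  field_simp
  ring

end Fermat.Agent.LT.CFT.H49

end
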