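import Mathlib
import Fermat.Agent.LT.CFT.H49.HasseTop
import Fermat.Agent.LT.CFT.H49.HasseWA
import Fermat.Agent.LT.CFT.H637.HasseSet
import Fermat.Agent.LT.CFT.H119.CycVanish

/-!
# Row LT, tower CFT, leaf CFT.12 `HasseOfVanishC` CLOSED (helper49), OFF-MAIN

* `hasseOfVanish49 : Fermat.Agent.LT.CFT.HasseOfVanishC` (registry row 897), from
  `hasseOfVanish_of_bricks49` (chase + semi-local step, `HasseTop.lean`),
  `hasseWA49` (weak approximation, `HasseWA.lean`) and `hasseSetC637` (helper637).
* `hasseNorm49 : Fermat.Agent.LT.CFT.HasseNormC` : the HASSE NORM THEOREM for cyclic extensions of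
  totally complex number fields, UNCONDITIONAL, with `cycVanish119` (helper119, CFT.11).
-/

set_option autoImplicit false

noncomputable section

namespace Fermat.Agent.LT.CFT.H49

/-- **CFT.12** `HasseOfVanishC`. -/
theorem hasseOfVanish49 : Fermat.Agent.LT.CFT.HasseOfVanishC :=
  hasseOfVanish_of_bricks49 hasseWA49 Fermat.Agent.LT.CFT.H637.hasseSetC637

/-- **The Hasse norm theorem** (cyclic extensions of totally complex number fields). -/
theorem hasseNorm49 : Fermat.Agent.LT.CFT.HasseNormC :=
  Fermat.Agent.LT.CFT.hasseNorm_of_leaves Fermat.Agent.LT.CFT.H119.cycVanish119 hasseOfVanish49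

end Fermat.Agent.LT.CFT.H49

end
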